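import Fermat.Agent.ConductorLevel.Strong
import Fermat.Agent.RT.Assembly.Forms
import Fermat.Agent.RT.Frey.Lowering

/-!
A modular Frey curve is residually modular of a conductor level, and the wiring of milestone 45,
from the newform inputs with the strengthened Carayol property.
-/

set_option autoImplicit false

open WeierstrassCurve WeierstrassCurve.Affine WeierstrassCurve.Affine.Point
open CuspForm ModularFormClass

namespace Fermat.Agent.ConductorLevel

/-- Integral models of one curve have the same `a_ℓ` at common good primes. -/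
theorem apOfModel_eq_of_models {E : WeierstrassCurve ℚ} [E.IsElliptic]
    {W W' : WeierstrassCurve ℤ} (hW : W.IsIntegralModelOf E) (hW' : W'.IsIntegralModelOf E)
    {ℓ : ℕ} (hℓ : ℓ.Prime) (hgood : W.IsGoodPrimeFor ℓ) (hgood' : W'.IsGoodPrimeFor ℓ) :
    W.apOfModel ℓ = W'.apOfModel ℓ := by
  obtain ⟨p, hle, hp⟩ :=
    Nat.exists_infinite_primes (max ℓ (W.apOfModel ℓ - W'.apOfModel ℓ).natAbs + 1)
  have := Fact.mk hp
  have h := RT.Assembly.apOfModel_cast_eq hW hW' (p := p) hℓ hgood hgood' (by omega)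
  rw [ZMod.intCast_eq_intCast_iff_dvd_sub, Int.natCast_dvd] at h
  by_contra hne
  have := Nat.le_of_dvd (by omega) h
  omega

/-- A modular Frey curve has an integral model modular of the conductor level. -/
theorem freyCurveInt_isModularModelOfLevel (h35 : NewformRepInput) (hC : NewformCarayolSqInput)
    (P : FreyPackage) (hmod : P.freyCurve.IsModular) :
    P.freyCurveInt.IsModularModelOfLevel P.freyCurveInt.conductorLevel := by
  classical
  obtain ⟨W, hW, N, hN, f, hf, hfW⟩ := hmod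
  have hΔ := EC.Reduction.Frey.Δ_ne_zero P
  have : P.freyCurve.IsElliptic := by
    rw [EC.Reduction.Frey.freyCurve_eq_map]
    exact ⟨isUnit_iff_ne_zero.2 (by rw [map_Δ]; simpa using hΔ)⟩
  have hW₀ : P.freyCurveInt.IsIntegralModelOf P.freyCurve :=
    ⟨1, by rw [one_smul, EC.Reduction.Frey.freyCurve_eq_map]⟩
  have hΔW : W.Δ ≠ 0 := by
    intro h
    obtain ⟨C, hC'⟩ := hW
    have h2 : (W.map (Int.castRingHom ℚ)).Δ = 0 := by rw [map_Δ, h, _root_.map_zero]
    exact (C • P.freyCurve).isUnit_Δ.ne_zero (hC' ▸ h2)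
  refine isModularModelOfLevel_conductorLevel_of_almost h35 hC _
    (fun q hq hd => EC.Reduction.Frey.not_dvd_c₄ P hq
      (by_contra fun h => EC.Reduction.Frey.not_dvd_Δ P hq h hd)) hΔ hN.ne' hf
    (N.primeFactors ∪ W.Δ.natAbs.primeFactors ∪ P.freyCurveInt.Δ.natAbs.primeFactors)
    fun ℓ hℓ hℓT => ?_
  simp only [Finset.mem_union, not_or] at hℓT
  have hgood : ∀ {V : WeierstrassCurve ℤ}, V.Δ ≠ 0 → ℓ ∉ V.Δ.natAbs.primeFactors →
      V.IsGoodPrimeFor ℓ := fun hV h hd =>
    h (Nat.mem_primeFactors.2 ⟨hℓ, Int.natCast_dvd.mp hd, Int.natAbs_ne_zero.2 hV⟩)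
  rw [hfW ℓ hℓ (hgood hΔW hℓT.1.2) fun hd => hℓT.1.1 (Nat.mem_primeFactors.2 ⟨hℓ, hd, hN.ne'⟩),
    apOfModel_eq_of_models hW hW₀ hℓ (hgood hΔW hℓT.1.2) (hgood hΔ hℓT.2)]

/-- A modular Frey curve gives a conductor level at which the representation is modular. -/
theorem exists_conductorLevel_of_isModular (h35 : NewformRepInput) (hC : NewformCarayolSqInput)
    (P : FreyPackage) (hmod : P.freyCurve.IsModular) :
    ∃ N : ℕ, P.IsConductorLevel N ∧ P.ModularRepOfLevel N := by
  have hΔ := EC.Reduction.Frey.Δ_ne_zero P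
  obtain ⟨f, hf, hfW⟩ := freyCurveInt_isModularModelOfLevel h35 hC P hmod
  obtain ⟨𝔪, h𝔪, hpm⟩ := FLTPrelim.exists_maximalIdeal_natCast_prime_mem P.pp
  refine ⟨P.freyCurveInt.conductorLevel, ⟨conductorLevel_pos _, squarefree_conductorLevel _,
    fun q hq hqN => by_contra fun h => EC.Reduction.Frey.not_dvd_Δ P hq h
      ((prime_dvd_conductorLevel_iff _ hΔ hq).1 hqN)⟩, f, P.freyCurveInt, 𝔪, hf,
    ⟨1, by rw [one_smul, EC.Reduction.Frey.freyCurve_eq_map]⟩, h𝔪, hpm,
    fun ℓ hℓ hgood hℓN _ => ?_⟩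
  refine ⟨(P.freyCurveInt.apOfModel ℓ : integralClosure ℤ ℂ), ?_,
    by rw [sub_self]; exact zero_mem _⟩
  rw [hfW ℓ hℓ hgood hℓN]
  norm_cast

/-- The statement of milestone 45, from level lowering and the newform inputs. -/
theorem level_lowering_to_two_of_isModular (h43 : RT.Frey.LowerOddInput)
    (h44 : RT.Frey.LowerAtPInput) (h35 : NewformRepInput) (hC : NewformCarayolSqInput)
    (P : FreyPackage) (hmod : P.freyCurve.IsModular)
    (hirr : GaloisRepIsIrreducible (K := AlgebraicClosure ℚ) ℚ P.freyCurve P.p) :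
    ∃ f : CuspForm (CongruenceSubgroup.Gamma0 2) 2, f ≠ 0 :=
  RT.Frey.exists_form_two h43 h44 P hirr (exists_conductorLevel_of_isModular h35 hC P hmod)

end Fermat.Agent.ConductorLevel
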