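import Fermat.Agent.ConductorLevel.Assembly
import Fermat.Agent.S35
import Fermat.Agent.S36

/-!
# The inputs on newform representations hold
-/

set_option autoImplicit false

namespace Fermat.Agent.ConductorLevel

theorem newformRepInput : NewformRepInput := @Fermat.Agent.S35.result

theorem newformCarayolInput : NewformCarayolInput := @Fermat.Agent.S36.result

end Fermat.Agent.ConductorLevel
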