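import Fermat.Agent.ConductorLevel.Assembly
import Fermat.Agent.ConductorLevel.CarayolSq

/-!
A semistable model modular of any level is modular of its conductor level, from the newform
inputs with the strengthened Carayol property.
-/

set_option autoImplicit false

noncomputable section

open WeierstrassCurve Polynomial CongruenceSubgroup ModularFormClass
open Fermat.Agent.Arith

namespace Fermat.Agent.ConductorLevel

local notation "Q̄" => AlgebraicClosure ℚ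

variable {W : WeierstrassCurve ℤ} {M : ℕ} [NeZero M] {g : CuspForm (Gamma0 M) 2}

/-- No square of a prime `q ≠ lam` divides the level. -/
theorem not_sq_dvd_level_of_carayolSq (hC : NewformCarayolSqInput) (hss : W.IsSemistableModel)
    (hΔ0 : W.Δ ≠ 0) (hg : g.IsNewform) {lam : ℕ} [Fact lam.Prime] (hlam2 : lam ≠ 2)
    {S : Finset ℕ} (hlamS : lam ∈ S) (hMS : ∀ q : ℕ, q.Prime → q ∣ M → q ∈ S)
    (hS : ∀ ℓ : ℕ, ℓ.Prime → ℓ ∉ S → W.IsGoodPrimeFor ℓ)
    (hgW : ∀ ℓ : ℕ, ℓ.Prime → ℓ ∉ S → qCoeff g ℓ = (W.apOfModel ℓ : ℂ))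
    {q : ℕ} (hq : q.Prime) (hqlam : q ≠ lam) : ¬ q ^ 2 ∣ M := by
  intro hq2
  have hlam : lam.Prime := Fact.out
  have hR : (eigenChar hg.1 (↑S : Set ℕ)).range ≤ (⊥ : Subalgebra ℤ ℂ).toSubring :=
    eigenChar_range_le hg.1 ⊥ fun ℓ hℓ hℓS =>
      Algebra.mem_bot.2 ⟨W.apOfModel ℓ, by simp [hgW ℓ hℓ (by simpa using hℓS)]⟩
  let φ : (⊥ : Subalgebra ℤ ℂ).toSubring →+* ℤ_[lam] :=
    (Int.castRingHom ℤ_[lam]).comp
      (Algebra.botEquivOfInjective (R := ℤ) (A := ℂ) Int.cast_injective).toRingEquiv.toRingHom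
  obtain ⟨O, _, _, _, _, _, _, _, _, _, -, ρ, hρ, hnot⟩ := hC hg lam S ℤ_[lam]
    (natCast_mem_maximalIdeal_padicInt lam) hlam2 (eigenChar hg.1 (↑S : Set ℕ))
    (fun ℓ hℓ hℓM hℓS => eigenChar_T hg.1 hℓ hℓM hℓS) (φ.comp (Subring.inclusion hR)) hlamS hMS
  have hρW : MatchesCurve ρ W S := fun ℓ hℓ hℓS A hA σ hσ => by
    have hℓM : ¬ ℓ ∣ M := fun hd => hℓS (hMS ℓ hℓ hd)
    rw [hρ ℓ hℓ hℓM (by simpa using hℓS) A hA σ hσ,
      intCast_range_map _ hR φ (by rw [eigenChar_T]; exact hgW ℓ hℓ hℓS), map_intCast]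
  have hlamO : (lam : O) ∈ IsLocalRing.maximalIdeal O := by
    rw [← map_natCast (algebraMap ℤ_[lam] O)]
    exact map_nonunit _ _ (natCast_mem_maximalIdeal_padicInt lam)
  exact hnot q hq hqlam hq2
    (isUnipotentOnInertiaAt_of_matches hss hΔ0 hρW hS hlam hlamS hlamO hq hqlam)

omit [NeZero M] in
/-- A semistable model whose `a_ℓ` are those of an eigenform of any level at almost all primes is
modular of its conductor level. -/
theorem isModularModelOfLevel_conductorLevel_of_almost (h35 : NewformRepInput)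
    (hC : NewformCarayolSqInput) (W : WeierstrassCurve ℤ) (hss : W.IsSemistableModel)
    (hΔ0 : W.Δ ≠ 0) {N : ℕ} (hN0 : N ≠ 0) {f : CuspForm (Gamma0 N) 2}
    (hf : f.IsNormalizedEigenform) (T : Finset ℕ)
    (hfW : ∀ ℓ : ℕ, ℓ.Prime → ℓ ∉ T → qCoeff f ℓ = (W.apOfModel ℓ : ℂ)) :
    W.IsModularModelOfLevel W.conductorLevel := by
  classical
  obtain ⟨M, hMN, g, hg, hgf⟩ := exists_newform_below hN0 hf
  have : NeZero M := ⟨fun h => hN0 (by simpa [h] using hMN)⟩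
  let S₀ : ℕ → Finset ℕ := fun lam =>
    insert lam (T ∪ N.primeFactors ∪ W.Δ.natAbs.primeFactors)
  have hnot : ∀ lam ℓ : ℕ, ℓ ∉ S₀ lam →
      ℓ ∉ T ∧ ℓ ∉ N.primeFactors ∧ ℓ ∉ W.Δ.natAbs.primeFactors := by
    intro lam ℓ h
    simp only [S₀, Finset.mem_insert, Finset.mem_union, not_or] at h
    exact ⟨h.2.1.1, h.2.1.2, h.2.2⟩
  have hMS : ∀ lam q : ℕ, q.Prime → q ∣ M → q ∈ S₀ lam := fun lam q hq hd =>
    Finset.mem_insert_of_mem (Finset.mem_union_left _ (Finset.mem_union_right _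
      (Nat.mem_primeFactors.2 ⟨hq, hd.trans hMN, hN0⟩)))
  have hS : ∀ lam ℓ : ℕ, ℓ.Prime → ℓ ∉ S₀ lam → W.IsGoodPrimeFor ℓ := fun lam ℓ hℓ h hd =>
    (hnot lam ℓ h).2.2 (Nat.mem_primeFactors.2
      ⟨hℓ, Int.natCast_dvd.mp hd, Int.natAbs_ne_zero.2 hΔ0⟩)
  have hgW : ∀ lam ℓ : ℕ, ℓ.Prime → ℓ ∉ S₀ lam → qCoeff g ℓ = (W.apOfModel ℓ : ℂ) :=
    fun lam ℓ hℓ h => by
      rw [hgf ℓ hℓ fun hd => (hnot lam ℓ h).2.1 (Nat.mem_primeFactors.2 ⟨hℓ, hd, hN0⟩),
        hfW ℓ hℓ (hnot lam ℓ h).1]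
  have hsq : ∀ q : ℕ, q.Prime → ¬ q ^ 2 ∣ M := by
    intro q hq
    obtain ⟨lam, hlam, hne, h2⟩ : ∃ lam : ℕ, lam.Prime ∧ q ≠ lam ∧ lam ≠ 2 := by
      by_cases h3 : q = 3
      · exact ⟨5, by norm_num, by omega, by norm_num⟩
      · exact ⟨3, Nat.prime_three, h3, by norm_num⟩
    have := Fact.mk hlam
    exact not_sq_dvd_level_of_carayolSq hC hss hΔ0 hg h2 (Finset.mem_insert_self _ _) (hMS lam)
      (hS lam) (hgW lam) hq hne
  have hbadM : ∀ q : ℕ, q.Prime → q ∣ M → (q : ℤ) ∣ W.Δ := by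
    intro q hq hqM
    by_contra hgood
    obtain ⟨lam, hlam, hne⟩ : ∃ lam : ℕ, lam.Prime ∧ q ≠ lam := by
      by_cases h2 : q = 2
      · exact ⟨3, Nat.prime_three, by omega⟩
      · exact ⟨2, Nat.prime_two, h2⟩
    have := Fact.mk hlam
    exact not_good_of_dvd_level h35 hΔ0 hg (hMS lam) (hS lam) (hgW lam)
      (Finset.mem_insert_self _ _) hq hne hqM (hsq q hq) hgood
  have hML : M ∣ W.conductorLevel := by
    have e1 : ∏ q ∈ M.primeFactors, q = M :=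
      Nat.prod_primeFactors_of_squarefree (Nat.squarefree_iff_prime_squarefree.2
        fun q hq h => hsq q hq (by rwa [sq]))
    have e2 : ∏ q ∈ W.conductorLevel.primeFactors, q = W.conductorLevel :=
      Nat.prod_primeFactors_of_squarefree W.squarefree_conductorLevel
    rw [← e1, ← e2]
    refine Finset.prod_dvd_prod_of_subset _ _ _ fun q hq => ?_
    have hq' := Nat.prime_of_mem_primeFactors hq
    exact Nat.mem_primeFactors.2 ⟨hq', (W.prime_dvd_conductorLevel_iff hΔ0 hq').2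
      (hbadM q hq' (Nat.dvd_of_mem_primeFactors hq)), W.conductorLevel_pos.ne'⟩
  obtain ⟨h, hh, hhg⟩ := exists_raise W.squarefree_conductorLevel hML hg.1
  refine ⟨h, hh, fun q hq hgood hqL => ?_⟩
  rw [hhg q hq hqL]
  exact qCoeff_eq_of_good h35 hΔ0 hg (hMS 3) (hS 3) (hgW 3) hq hgood
    fun hd => hqL (hd.trans hML)

end Fermat.Agent.ConductorLevel
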